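import Fermat.Agent.GS.Abs.Basic

/-!
# GS bridge, file Approx (abstract): weak approximation for the two Gauss valuation rings

`v₁, v₂` the two valuations, `e₁` with `v₁(e₁) = 0`, `v₂(e₁) ≥ 1`, `e₂` with `v₂(e₂) = 0`,
`v₁(e₂) ≥ 1`.  Put `E₂ = e₂^k / (e₁^k + e₂^k)`, `E₁ = 1 - E₂ = e₁^k / (e₁^k + e₂^k)`.  Then
`E₂ / ϖ^k ∈ 𝒪₁` and `E₁ / ϖ^k ∈ 𝒪₂` (`e₁^k + e₂^k` is a unit of both rings:
`e₁` is a unit of `𝒪₁` by `GaussRing.unif`, `e₂^k ∈ ϖ 𝒪₁`).  `z := z₁ E₁ + z₂ E₂`: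
`z / z₁ - 1 = E₂ (z₂ / z₁ - 1)`, `z / z₂ - 1 = E₁ (z₁ / z₂ - 1)`; choose `k ≥ 1 + k₁, 1 + k₂` with
`ϖ^k₁ (z₂ / z₁ - 1) ∈ 𝒪₁`, `ϖ^k₂ (z₁ / z₂ - 1) ∈ 𝒪₂`.
-/

set_option autoImplicit false

namespace Fermat.Agent.GS

open Fermat.Agent.GR.E

variable {R : Type*} [CommRing R] {F : Type*} [Field F] [Algebra R F]
variable {ϖ : R} {𝒪₁ 𝒪₂ : ValuationSubring F}

lemma Approx_mem_of_sub_one {𝒪 : ValuationSubring F} (hG : GaussRing ϖ 𝒪) {x : F}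
    (hx : (x - 1) / algebraMap R F ϖ ∈ 𝒪) : x ∈ 𝒪 := by
  have : x = 1 + algebraMap R F ϖ * ((x - 1) / algebraMap R F ϖ) := by
    have := hG.ne_zero
    field_simp
    ring
  rw [this]
  exact 𝒪.add_mem _ _ 𝒪.one_mem (𝒪.mul_mem _ _ hG.mem hx)

lemma Approx_mul_sub_one {𝒪 : ValuationSubring F} (hG : GaussRing ϖ 𝒪) {x y : F}
    (hx : (x - 1) / algebraMap R F ϖ ∈ 𝒪) (hy : (y - 1) / algebraMap R F ϖ ∈ 𝒪) :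
    (x * y - 1) / algebraMap R F ϖ ∈ 𝒪 := by
  have hy' := Approx_mem_of_sub_one hG hy
  have : (x * y - 1) / algebraMap R F ϖ =
      (x - 1) / algebraMap R F ϖ * y + (y - 1) / algebraMap R F ϖ := by
    ring
  rw [this]
  exact 𝒪.add_mem _ _ (𝒪.mul_mem _ _ hx hy') hy

lemma Approx_pow_sub_one {𝒪 : ValuationSubring F} (hG : GaussRing ϖ 𝒪) {x : F}
    (hx : (x - 1) / algebraMap R F ϖ ∈ 𝒪) (i : ℕ) :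
    (x ^ i - 1) / algebraMap R F ϖ ∈ 𝒪 := by
  induction i with
  | zero => simp [𝒪.zero_mem]
  | succ i ih => rw [pow_succ]; exact Approx_mul_sub_one hG ih hx

/-- `e^k + e'^k` is a unit of `𝒪` if `e` is a unit and `e' ∈ ϖ 𝒪`, `k ≥ 1`. -/
lemma Approx_unit {𝒪 : ValuationSubring F} (hG : GaussRing ϖ 𝒪) {e e' : F} (he : e ∈ 𝒪)
    (he' : e / algebraMap R F ϖ ∉ 𝒪) (h' : e' / algebraMap R F ϖ ∈ 𝒪) (k : ℕ) :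
    e ^ (k + 1) + e' ^ (k + 1) ≠ 0 ∧ (e ^ (k + 1) + e' ^ (k + 1))⁻¹ ∈ 𝒪 := by
  have hπ := hG.ne_zero
  have hinv : e⁻¹ ∈ 𝒪 := (hG.unif e he).resolve_left he'
  have he0 : e ≠ 0 := by
    rintro rfl
    exact he' (by rw [zero_div]; exact 𝒪.zero_mem)
  have hmem' : e' ∈ 𝒪 := by
    have : e' = algebraMap R F ϖ * (e' / algebraMap R F ϖ) := by field_simp
    rw [this]
    exact 𝒪.mul_mem _ _ hG.mem h'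
  have hD : e ^ (k + 1) + e' ^ (k + 1) ∈ 𝒪 :=
    𝒪.add_mem _ _ (𝒪.pow_mem he _) (𝒪.pow_mem hmem' _)
  have hnot : (e ^ (k + 1) + e' ^ (k + 1)) / algebraMap R F ϖ ∉ 𝒪 := by
    intro hcon
    apply hG.inv_not_mem
    have h1 : e' ^ (k + 1) / algebraMap R F ϖ ∈ 𝒪 := by
      have : e' ^ (k + 1) / algebraMap R F ϖ = e' ^ k * (e' / algebraMap R F ϖ) := by
        rw [pow_succ]; ring
      rw [this]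
      exact 𝒪.mul_mem _ _ (𝒪.pow_mem hmem' _) h'
    have h2 : e ^ (k + 1) / algebraMap R F ϖ ∈ 𝒪 := by
      have : e ^ (k + 1) / algebraMap R F ϖ =
          (e ^ (k + 1) + e' ^ (k + 1)) / algebraMap R F ϖ - e' ^ (k + 1) / algebraMap R F ϖ := by
        ring
      rw [this]
      exact 𝒪.sub_mem hcon h1
    have h3 : (algebraMap R F ϖ)⁻¹ = e ^ (k + 1) / algebraMap R F ϖ * e⁻¹ ^ (k + 1) := by
      rw [inv_pow, div_mul_eq_mul_div, mul_inv_cancel₀ (pow_ne_zero _ he0), one_div]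
    rw [h3]
    exact 𝒪.mul_mem _ _ h2 (𝒪.pow_mem hinv _)
  refine ⟨?_, (hG.unif _ hD).resolve_left hnot⟩
  intro h0
  exact hnot (by rw [h0, zero_div]; exact 𝒪.zero_mem)

/-- one half of the estimate -/
lemma Approx_half {𝒪 : ValuationSubring F} (hG : GaussRing ϖ 𝒪) {e' D x : F} {k k₁ : ℕ}
    (h' : e' / algebraMap R F ϖ ∈ 𝒪) (hD : D⁻¹ ∈ 𝒪) (hk : k₁ ≤ k)
    (hx : algebraMap R F ϖ ^ k₁ * x ∈ 𝒪) :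
    (e' ^ (k + 1) / D * x) / algebraMap R F ϖ ∈ 𝒪 := by
  have hπ := hG.ne_zero
  obtain ⟨d, rfl⟩ := Nat.exists_eq_add_of_le hk
  have : (e' ^ (k₁ + d + 1) / D * x) / algebraMap R F ϖ =
      (e' / algebraMap R F ϖ) ^ (k₁ + d + 1) * D⁻¹ * algebraMap R F ϖ ^ d *
        (algebraMap R F ϖ ^ k₁ * x) := by
    rw [div_pow]
    have h1 : algebraMap R F ϖ ^ (k₁ + d + 1) =
        algebraMap R F ϖ ^ d * algebraMap R F ϖ ^ k₁ * algebraMap R F ϖ := by ring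
    rw [h1]
    have h2 := pow_ne_zero d hπ
    have h3 := pow_ne_zero k₁ hπ
    by_cases hD0 : D = 0
    · subst hD0
      simp
    field_simp
  rw [this]
  exact 𝒪.mul_mem _ _ (𝒪.mul_mem _ _ (𝒪.mul_mem _ _ (𝒪.pow_mem h' _) hD) (𝒪.pow_mem hG.mem _)) hx

theorem exists_approx (hG₁ : GaussRing ϖ 𝒪₁) (hG₂ : GaussRing ϖ 𝒪₂)
    (harch₁ : ∀ x : F, ∃ k : ℕ, algebraMap R F ϖ ^ k * x ∈ 𝒪₁)
    (harch₂ : ∀ x : F, ∃ k : ℕ, algebraMap R F ϖ ^ k * x ∈ 𝒪₂)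
    {e₁ e₂ : F} (he₁ : e₁ ∈ 𝒪₁) (he₁' : e₁ / algebraMap R F ϖ ∉ 𝒪₁)
    (he₁₂ : e₁ / algebraMap R F ϖ ∈ 𝒪₂)
    (he₂ : e₂ ∈ 𝒪₂) (he₂' : e₂ / algebraMap R F ϖ ∉ 𝒪₂) (he₂₁ : e₂ / algebraMap R F ϖ ∈ 𝒪₁)
    {z₁ z₂ : F} (hz₁ : z₁ ≠ 0) (hz₂ : z₂ ≠ 0) :
    ∃ z : F, z ≠ 0 ∧ (z / z₁ - 1) / algebraMap R F ϖ ∈ 𝒪₁ ∧
      (z / z₂ - 1) / algebraMap R F ϖ ∈ 𝒪₂ := by
  obtain ⟨k₁, hk₁⟩ := harch₁ (z₂ / z₁ - 1)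
  obtain ⟨k₂, hk₂⟩ := harch₂ (z₁ / z₂ - 1)
  set k := max k₁ k₂ with hk
  obtain ⟨hD0, hD₁⟩ := Approx_unit hG₁ he₁ he₁' he₂₁ k
  obtain ⟨-, hD₂⟩ := Approx_unit hG₂ he₂ he₂' he₁₂ k
  rw [add_comm] at hD₂
  set D := e₁ ^ (k + 1) + e₂ ^ (k + 1) with hDdef
  have hz1 : ((z₁ * (e₁ ^ (k + 1) / D) + z₂ * (e₂ ^ (k + 1) / D)) / z₁ - 1) / algebraMap R F ϖ
      ∈ 𝒪₁ := by
    have h1 := Approx_half hG₁ he₂₁ hD₁ (le_max_left k₁ k₂) hk₁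
    have h2 : (z₁ * (e₁ ^ (k + 1) / D) + z₂ * (e₂ ^ (k + 1) / D)) / z₁ - 1 =
        e₂ ^ (k + 1) / D * (z₂ / z₁ - 1) := by
      have h3 : e₁ ^ (k + 1) = D - e₂ ^ (k + 1) := by rw [hDdef]; ring
      rw [h3]
      field_simp
      ring
    rw [h2]
    exact h1
  have hz2 : ((z₁ * (e₁ ^ (k + 1) / D) + z₂ * (e₂ ^ (k + 1) / D)) / z₂ - 1) / algebraMap R F ϖ
      ∈ 𝒪₂ := by
    have h1 := Approx_half hG₂ he₁₂ hD₂ (le_max_right k₁ k₂) hk₂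
    have h2 : (z₁ * (e₁ ^ (k + 1) / D) + z₂ * (e₂ ^ (k + 1) / D)) / z₂ - 1 =
        e₁ ^ (k + 1) / D * (z₁ / z₂ - 1) := by
      have h3 : e₂ ^ (k + 1) = D - e₁ ^ (k + 1) := by rw [hDdef]; ring
      rw [h3]
      field_simp
      ring
    rw [h2]
    exact h1
  refine ⟨_, ?_, hz1, hz2⟩
  intro h0
  rw [h0, zero_div, zero_sub] at hz1
  apply hG₁.inv_not_mem
  have : (algebraMap R F ϖ)⁻¹ = -(-1 / algebraMap R F ϖ) := by ring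
  rw [this]
  exact 𝒪₁.neg_mem _ hz1

/-- `y z₁ⁿ ≡ 1` at `𝒪₁` and `y z₂ⁿ ≡ 1` at `𝒪₂`: then one `z` does both. -/
theorem exists_common_pow (hG₁ : GaussRing ϖ 𝒪₁) (hG₂ : GaussRing ϖ 𝒪₂)
    (harch₁ : ∀ x : F, ∃ k : ℕ, algebraMap R F ϖ ^ k * x ∈ 𝒪₁)
    (harch₂ : ∀ x : F, ∃ k : ℕ, algebraMap R F ϖ ^ k * x ∈ 𝒪₂)
    {C : Subalgebra R F} (hC : NodalChart ϖ 𝒪₁ 𝒪₂ C) (n : ℕ)
    {y z₁ z₂ : F} (hz₁ : z₁ ≠ 0) (hz₂ : z₂ ≠ 0)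
    (h₁ : (y * z₁ ^ n - 1) / algebraMap R F ϖ ∈ 𝒪₁)
    (h₂ : (y * z₂ ^ n - 1) / algebraMap R F ϖ ∈ 𝒪₂) :
    ∃ z : F, z ≠ 0 ∧ (y * z ^ n - 1) / algebraMap R F ϖ ∈ 𝒪₁ ∧
      (y * z ^ n - 1) / algebraMap R F ϖ ∈ 𝒪₂ := by
  obtain ⟨e₁, he₁C, he₁₂, he₁'⟩ := hC.sep₁
  obtain ⟨e₂, he₂C, he₂₁, he₂'⟩ := hC.sep₂
  obtain ⟨z, hz0, hz1, hz2⟩ := exists_approx hG₁ hG₂ harch₁ harch₂ (hC.le₁ _ he₁C) he₁' he₁₂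
    (hC.le₂ _ he₂C) he₂' he₂₁ hz₁ hz₂
  refine ⟨z, hz0, ?_, ?_⟩
  · have h := Approx_mul_sub_one hG₁ h₁ (Approx_pow_sub_one hG₁ hz1 n)
    have e : y * z₁ ^ n * (z / z₁) ^ n = y * z ^ n := by
      rw [div_pow]
      field_simp
    rwa [e] at h
  · have h := Approx_mul_sub_one hG₂ h₂ (Approx_pow_sub_one hG₂ hz2 n)
    have e : y * z₂ ^ n * (z / z₂) ^ n = y * z ^ n := by
      rw [div_pow]
      field_simp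
    rwa [e] at h

end Fermat.Agent.GS
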