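import Fermat.Agent.GS.Conc.Model
import Fermat.Agent.GR.E.M1

/-!
# GS bridge, file Arch: the two Gauss valuations are discrete (archimedean form)

`E.M1_nf`: every `u ∈ FF L N` is `c * g / h` with `c ∈ L`, `g, h ∈ FF L N` primitive.  `R` is a DVR,
so `ϖ ^ k * c ∈ R` for some `k`.  For `𝒪₂` apply this to `w x` (`w` is `L`-linear, so
`w (ϖ ^ k * x) = ϖ ^ k * w x`).
-/

set_option autoImplicit false
set_option synthInstance.maxHeartbeats 400000

noncomputable section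

namespace Fermat.Agent.GS

open Fermat.Agent.GR Fermat.Agent.GR.E ModularCurve IntermediateField

theorem Arch_exists_pow_mul_mem {L : Type*} [Field L] (R : ValuationSubring L)
    [IsDiscreteValuationRing R] {ϖ : R} (hϖ : Irreducible ϖ) (c : L) :
    ∃ k : ℕ, (ϖ : L) ^ k * c ∈ R := by
  rcases R.mem_or_inv_mem c with h | h
  · exact ⟨0, by rwa [pow_zero, one_mul]⟩
  · by_cases hc : c = 0
    · exact ⟨0, by rw [hc, mul_zero]; exact R.zero_mem⟩
    have hne : (⟨c⁻¹, h⟩ : R) ≠ 0 := fun h0 => inv_ne_zero hc (congrArg Subtype.val h0)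
    obtain ⟨k, u, hu⟩ := IsDiscreteValuationRing.eq_unit_mul_pow_irreducible hne hϖ
    refine ⟨k, ?_⟩
    have h1 : c⁻¹ = (u : R) * (ϖ : L) ^ k := congrArg Subtype.val hu
    have h2 : ((u : R) : L) * ((u⁻¹ : Rˣ) : R) = 1 := by
      have h5 : ((u : R) * ((u⁻¹ : Rˣ) : R) : R) = 1 := u.mul_inv
      exact congrArg Subtype.val h5
    have hu0 : ((u : R) : L) ≠ 0 := left_ne_zero_of_mul_eq_one h2
    have h3 : (ϖ : L) ^ k * c = (((u⁻¹ : Rˣ) : R) : L) := by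
      have h4 : (ϖ : L) ^ k = ((u : R) : L)⁻¹ * c⁻¹ := by
        rw [h1, ← mul_assoc, inv_mul_cancel₀ hu0, one_mul]
      rw [h4, mul_assoc, inv_mul_cancel₀ hc, mul_one]
      exact (eq_inv_of_mul_eq_one_right h2).symm
    rw [h3]
    exact ((u⁻¹ : Rˣ) : R).2

theorem Arch_coe_algebraMap {L : Type*} [Field L] (R : ValuationSubring L) (N : ℕ) (ϖ : R) :
    ((algebraMap R (FF L N) ϖ : FF L N) : LaurentSeries L) = HahnSeries.C (ϖ : L) := by
  have : ((algebraMap R (FF L N) ϖ : FF L N) : LaurentSeries L)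
      = algebraMap L (LaurentSeries L) (ϖ : L) := rfl
  rw [this, algebraMap_laurentSeries_eq_single]
  rfl

theorem exists_pow_mul_isGaussInt {L : Type*} [Field L] (R : ValuationSubring L)
    [IsDiscreteValuationRing R] (N : ℕ) {ϖ : R} (hϖ : Irreducible ϖ) (x : FF L N) :
    ∃ k : ℕ, IsGaussInt R N (algebraMap R (FF L N) ϖ ^ k * x) := by
  rcases M1_nf R N x.2 with h0 | ⟨c, hc, f, g, hfF, hgF, hf, hg, hu⟩
  · refine ⟨0, 0, 1, zero_mem _, one_mem _, M1_isInt_zero R, M1_isPrim_one R, ?_⟩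
    rw [pow_zero, one_mul, h0, zero_mul]
  · obtain ⟨k, hk⟩ := Arch_exists_pow_mul_mem R hϖ c
    refine ⟨k, HahnSeries.C ((ϖ : L) ^ k * c) * f, g, mul_mem (M1_C_mem_FF N _) hfF, hgF,
      M1_isInt_C_mul R hk hf.1, hg, ?_⟩
    rw [IntermediateField.coe_mul, IntermediateField.coe_pow, Arch_coe_algebraMap, mul_assoc, hu,
      map_mul, map_pow, mul_assoc]

variable {L : Type*} [Field L] {R : ValuationSubring L} [IsDiscreteValuationRing R] {q N : ℕ}
  {h : FF L N} {w : FF L N ≃ₐ[L] FF L N} {𝒪₁ 𝒪₂ : ValuationSubring (FF L N)}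

theorem NodalModelData.arch₁ (MD : NodalModelData R q N h w 𝒪₁ 𝒪₂) {ϖ : R} (hϖ : Irreducible ϖ)
    (x : FF L N) : ∃ k : ℕ, algebraMap R (FF L N) ϖ ^ k * x ∈ 𝒪₁ := by
  obtain ⟨k, hk⟩ := exists_pow_mul_isGaussInt R N hϖ x
  exact ⟨k, (MD.spec _).2 hk⟩

theorem NodalModelData.arch₂ (MD : NodalModelData R q N h w 𝒪₁ 𝒪₂) {ϖ : R} (hϖ : Irreducible ϖ)
    (x : FF L N) : ∃ k : ℕ, algebraMap R (FF L N) ϖ ^ k * x ∈ 𝒪₂ := by
  obtain ⟨k, hk⟩ := MD.arch₁ hϖ (w x)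
  refine ⟨k, (MD.opp _).2 ?_⟩
  have h1 : w (algebraMap R (FF L N) ϖ) = algebraMap R (FF L N) ϖ := by
    have : algebraMap R (FF L N) ϖ = algebraMap L (FF L N) (ϖ : L) := rfl
    rw [this, w.commutes]
  rwa [map_mul, map_pow, h1]

end Fermat.Agent.GS
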