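import Fermat.Agent.GS.Conc.Model
import Fermat.Agent.GS.Abs.Cert

/-!
# GS bridge, file Cert: from a certificate over `L[x]` to a certificate over the chart `chart R {x}`

`z` integral over `L[x]`, `L = Frac R = R[1/ϖ]`: a monic equation `z^d + ∑ c_i z^i = 0`, `c_i ∈ L[x]`;
finitely many coefficients in `L`, so `ϖ^k c_i ∈ R[x]` for all `i` and some `k`; then `ϖ^k z` is a root
of the monic polynomial `T^d + ∑ ϖ^(k (d - i)) c_i T^i` over `R[x]`
(compare `E.exists_pow_mul_mem_chart` / `E.E0_exists_pow_mul_mem_adjoin` in `GR/E/E0.lean`, or use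
`IsIntegral.exists_multiple_integral_of_isLocalization`).
Then `a_i' = ϖ^k a_i`, `b_i' = ϖ^k b_i`: `a_i'^n w = ϖ^(k n) a_i^n w ∈ C`, `∑ a_i' b_i' = ϖ^(2 k)`.
-/

set_option autoImplicit false
set_option synthInstance.maxHeartbeats 400000

noncomputable section

namespace Fermat.Agent.GS

open Fermat.Agent.GR Fermat.Agent.GR.E ModularCurve IntermediateField

variable {L : Type*} [Field L] (R : ValuationSubring L) [IsDiscreteValuationRing R] {N : ℕ}

/-- `L = R[1/ϖ]`. -/
theorem Cert_exists_pow_mul_mem {ϖ : R} (hϖ : Irreducible ϖ) (r : L) :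
    ∃ n : ℕ, (ϖ : L) ^ n * r ∈ R := by
  rcases R.mem_or_inv_mem r with h | h
  · exact ⟨0, by rw [pow_zero, one_mul]; exact h⟩
  · by_cases hr : r = 0
    · exact ⟨0, by rw [hr, mul_zero]; exact R.zero_mem⟩
    have hne : (⟨r⁻¹, h⟩ : R) ≠ 0 := fun h0 => inv_ne_zero hr (congrArg Subtype.val h0)
    obtain ⟨n, u, hu⟩ := IsDiscreteValuationRing.eq_unit_mul_pow_irreducible hne hϖ
    refine ⟨n, ?_⟩
    have h1 : r⁻¹ = ((u : R) : L) * (ϖ : L) ^ n := by
      have := congrArg Subtype.val hu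
      simpa using this
    have h2 : ((u : R) : L) * (((u⁻¹ : Rˣ) : R) : L) = 1 := by
      have h5 : ((((u : R) * ((u⁻¹ : Rˣ) : R) : R)) : L) = ((1 : R) : L) :=
        congrArg Subtype.val (Units.mul_inv u)
      exact h5
    have h3 : (ϖ : L) ^ n * r = (((u⁻¹ : Rˣ) : R) : L) := by
      have h4 : r * r⁻¹ = 1 := mul_inv_cancel₀ hr
      rw [h1] at h4
      calc (ϖ : L) ^ n * r = (r * (((u : R) : L) * (ϖ : L) ^ n)) * (((u⁻¹ : Rˣ) : R) : L)
            - (ϖ : L) ^ n * r * (((u : R) : L) * (((u⁻¹ : Rˣ) : R) : L) - 1) := by ring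
        _ = _ := by rw [h4, h2]; ring
    rw [h3]
    exact ((u⁻¹ : Rˣ) : R).2

theorem Cert_exists_pow_mul_mem_adjoin {ϖ : R} (hϖ : Irreducible ϖ) (x : FF L N) {c : FF L N}
    (hc : c ∈ Algebra.adjoin L ({x} : Set (FF L N))) :
    ∃ n : ℕ, algebraMap R (FF L N) ϖ ^ n * c ∈ Algebra.adjoin R ({x} : Set (FF L N)) := by
  induction hc using Algebra.adjoin_induction with
  | mem y hy => exact ⟨0, by rw [pow_zero, one_mul]; exact Algebra.subset_adjoin hy⟩
  | algebraMap r =>
    obtain ⟨n, hn⟩ := Cert_exists_pow_mul_mem R hϖ r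
    refine ⟨n, ?_⟩
    have : algebraMap R (FF L N) ϖ ^ n * algebraMap L (FF L N) r =
        algebraMap R (FF L N) ⟨(ϖ : L) ^ n * r, hn⟩ := by
      change algebraMap L (FF L N) (ϖ : L) ^ n * algebraMap L (FF L N) r =
        algebraMap L (FF L N) ((ϖ : L) ^ n * r)
      rw [map_mul, map_pow]
    rw [this]
    exact Subalgebra.algebraMap_mem _ _
  | add a b _ _ ha hb =>
    obtain ⟨n, hn⟩ := ha
    obtain ⟨n', hn'⟩ := hb
    refine ⟨n + n', ?_⟩
    have : algebraMap R (FF L N) ϖ ^ (n + n') * (a + b) =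
        algebraMap R (FF L N) ϖ ^ n' * (algebraMap R (FF L N) ϖ ^ n * a) +
          algebraMap R (FF L N) ϖ ^ n * (algebraMap R (FF L N) ϖ ^ n' * b) := by
      rw [pow_add]; ring
    rw [this]
    exact add_mem (mul_mem (pow_mem (Subalgebra.algebraMap_mem _ _) _) hn)
      (mul_mem (pow_mem (Subalgebra.algebraMap_mem _ _) _) hn')
  | mul a b _ _ ha hb =>
    obtain ⟨n, hn⟩ := ha
    obtain ⟨n', hn'⟩ := hb
    refine ⟨n + n', ?_⟩
    have : algebraMap R (FF L N) ϖ ^ (n + n') * (a * b) =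
        (algebraMap R (FF L N) ϖ ^ n * a) * (algebraMap R (FF L N) ϖ ^ n' * b) := by
      rw [pow_add]; ring
    rw [this]
    exact mul_mem hn hn'

theorem exists_pow_mul_mem_chart_of_isIntegral {ϖ : R} (hϖ : Irreducible ϖ) (x z : FF L N)
    (hz : IsIntegral (Algebra.adjoin L ({x} : Set (FF L N))) z) :
    ∃ k : ℕ, ∀ m : ℕ, k ≤ m → algebraMap R (FF L N) ϖ ^ m * z ∈ chart R ({x} : Set (FF L N)) := by
  classical
  obtain ⟨p, hmonic, hroot⟩ := hz
  set s : FF L N := algebraMap R (FF L N) ϖ with hs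
  have hsA : s ∈ Algebra.adjoin R ({x} : Set (FF L N)) := Subalgebra.algebraMap_mem _ _
  have hcoeff : ∀ i, ∃ n : ℕ, s ^ n * (p.coeff i : FF L N) ∈
      Algebra.adjoin R ({x} : Set (FF L N)) :=
    fun i => Cert_exists_pow_mul_mem_adjoin R hϖ x (p.coeff i).2
  choose n hn using hcoeff
  set M : ℕ := ∑ i ∈ Finset.range (p.natDegree + 1), n i with hM
  have hnM : ∀ i ≤ p.natDegree, n i ≤ M := fun i hi =>
    Finset.single_le_sum (f := n) (fun _ _ => Nat.zero_le _)
      (Finset.mem_range.mpr (Nat.lt_succ_of_le hi))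
  refine ⟨M, fun m hm => ?_⟩
  set q : Polynomial (FF L N) :=
    (p.map (algebraMap (Algebra.adjoin L ({x} : Set (FF L N))) (FF L N))).scaleRoots (s ^ m) with hq
  have hqmonic : q.Monic := (Polynomial.monic_scaleRoots_iff _).mpr (hmonic.map _)
  have hqroot : q.eval (s ^ m * z) = 0 := by
    rw [hq, Polynomial.scaleRoots_eval_mul, Polynomial.eval_map, hroot, mul_zero]
  have hqcoeff : ∀ i, q.coeff i ∈ Algebra.adjoin R ({x} : Set (FF L N)) := by
    intro i
    rw [hq, Polynomial.coeff_scaleRoots, Polynomial.coeff_map, hmonic.natDegree_map]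
    by_cases hi : i < p.natDegree
    · have hle : n i ≤ m * (p.natDegree - i) := by
        calc n i ≤ M := hnM i hi.le
          _ ≤ m := hm
          _ = m * 1 := (mul_one m).symm
          _ ≤ m * (p.natDegree - i) := Nat.mul_le_mul_left m (Nat.one_le_iff_ne_zero.mpr (by omega))
      obtain ⟨k, hk⟩ := Nat.exists_eq_add_of_le hle
      have : (s ^ m) ^ (p.natDegree - i) = s ^ k * s ^ n i := by
        rw [← pow_mul, hk, pow_add, mul_comm]
      rw [this, Subalgebra.algebraMap_def, Algebra.algebraMap_self_apply,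
        show (p.coeff i : FF L N) * (s ^ k * s ^ n i) = s ^ k * (s ^ n i * (p.coeff i : FF L N))
          by ring]
      exact mul_mem (pow_mem hsA k) (hn i)
    · rcases (not_lt.mp hi).lt_or_eq with hlt | heq
      · rw [Polynomial.coeff_eq_zero_of_natDegree_lt hlt, map_zero, zero_mul]
        exact zero_mem _
      · rw [← heq, hmonic.coeff_natDegree, map_one, one_mul, Nat.sub_self, pow_zero]
        exact one_mem _
  have hlifts : q ∈ Polynomial.lifts
      (algebraMap (Algebra.adjoin R ({x} : Set (FF L N))) (FF L N)) :=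
    (Polynomial.lifts_iff_coeff_lifts q).mpr fun i => ⟨⟨q.coeff i, hqcoeff i⟩, rfl⟩
  obtain ⟨q', hq'q, -, hq'monic⟩ := Polynomial.lifts_and_natDegree_eq_and_monic hlifts hqmonic
  refine mem_chart.mpr ⟨q', hq'monic, ?_⟩
  rw [Polynomial.eval₂_eq_eval_map, hq'q, hqroot]

theorem certAt_of_certificate {ϖ : R} (hϖ : Irreducible ϖ) (x : FF L N) (n : ℕ) (hn : n ≠ 0)
    (u : FF L N) (hc : Certificate L x n u) : CertAt ϖ (chart R ({x} : Set (FF L N))) n u := by
  obtain ⟨m, a, b, ha, hb, hab⟩ := hc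
  have hA := fun i => exists_pow_mul_mem_chart_of_isIntegral R hϖ x _ (ha i)
  have hB := fun i => exists_pow_mul_mem_chart_of_isIntegral R hϖ x _ (hb i)
  choose kA hkA using hA
  choose kB hkB using hB
  set k : ℕ := ∑ i, kA i + ∑ i, kB i with hk
  have hkA' : ∀ i, kA i ≤ k * n := fun i =>
    calc kA i ≤ ∑ i, kA i := Finset.single_le_sum (f := kA) (fun _ _ => Nat.zero_le _)
          (Finset.mem_univ i)
      _ ≤ k := Nat.le_add_right _ _
      _ = k * 1 := (mul_one k).symm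
      _ ≤ k * n := Nat.mul_le_mul_left k (Nat.one_le_iff_ne_zero.mpr hn)
  have hkB' : ∀ i, kB i ≤ k * n := fun i =>
    calc kB i ≤ ∑ i, kB i := Finset.single_le_sum (f := kB) (fun _ _ => Nat.zero_le _)
          (Finset.mem_univ i)
      _ ≤ k := Nat.le_add_left _ _
      _ = k * 1 := (mul_one k).symm
      _ ≤ k * n := Nat.mul_le_mul_left k (Nat.one_le_iff_ne_zero.mpr hn)
  refine ⟨2 * k, m, fun i => algebraMap R (FF L N) ϖ ^ k * a i,
    fun i => algebraMap R (FF L N) ϖ ^ k * b i, fun i => ?_, fun i => ?_, ?_⟩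
  · have : (algebraMap R (FF L N) ϖ ^ k * a i) ^ n * u =
        algebraMap R (FF L N) ϖ ^ (k * n) * (a i ^ n * u) := by
      rw [mul_pow, ← pow_mul, mul_assoc]
    rw [this]
    exact hkA i _ (hkA' i)
  · have : (algebraMap R (FF L N) ϖ ^ k * b i) ^ n * u⁻¹ =
        algebraMap R (FF L N) ϖ ^ (k * n) * (b i ^ n * u⁻¹) := by
      rw [mul_pow, ← pow_mul, mul_assoc]
    rw [this]
    exact hkB i _ (hkB' i)
  · have : ∀ i, algebraMap R (FF L N) ϖ ^ k * a i * (algebraMap R (FF L N) ϖ ^ k * b i) =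
        algebraMap R (FF L N) ϖ ^ (2 * k) * (a i * b i) := by
      intro i
      rw [two_mul, pow_add]; ring
    rw [Finset.sum_congr rfl (fun i _ => this i), ← Finset.mul_sum, hab, mul_one]

end Fermat.Agent.GS
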