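import Fermat.Agent.GS.Bridge.Approx
import Fermat.Agent.GS.Bridge.Arch
import Fermat.Agent.GS.Bridge.Cert
import Fermat.Agent.GS.Abs.Crux
import Fermat.Agent.GR.E.BR7

/-!
# GS bridge, file Core: the nodal crux over a field of definition `L`

Template: `GR.E.BR7_core` (file `GR/E/BR7.lean`).  Steps (`R = A.comap φ`, `ϖ` a uniformizer):
1. `(a / b - 1) / ϖ ∈ 𝒪₁` by `MD.spec` and `E.BR7_isGaussInt`; the same for `a' / b'`.
   So `(y z₁ⁿ - 1) / ϖ ∈ 𝒪₁`, and with `z₂' := w.symm z₂`:  `w ((y z₂'ⁿ - 1) / ϖ) = (a'/b' - 1) / ϖ ∈ 𝒪₁`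
   (`w` is `L`-linear, hence fixes `algebraMap R _ ϖ`), i.e. `(y z₂'ⁿ - 1) / ϖ ∈ 𝒪₂` by `MD.opp`.
2. `exists_common_pow` (with `MD.arch₁`, `MD.arch₂`, `MD.nodal0`): `z ≠ 0` with `w₀ := y zⁿ ≡ 1` at both.
3. `CertAt` for `w₀` on both charts: `certAt_of_certificate` for `y`, then `CertAt.mul_pow`
   (see `GS/Abs/Cert.lean`).
4. `nodal_crux`: `α ≠ 0` with `αⁿ (τ w₀ / w₀ ^ c)` in both charts; `E.isIntegral_of_mem_chart_of_mem_chart`
   + `E.exists_const_of_isIntegral`: its image in `Q̄((t))` is a constant `c₀ = γⁿ`.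
5. `τ w₀ / w₀^c = (τ y / y^c) (τ z / z^c)ⁿ`, so `τ y = y^c (γ z^c / (α τ z))ⁿ` after applying `coeffMap φ`.
-/

set_option autoImplicit false
set_option synthInstance.maxHeartbeats 400000

noncomputable section

namespace Fermat.Agent.GS

open Fermat.Agent.GR Fermat.Agent.GR.E ModularCurve IntermediateField

theorem nodal_core {L : Type*} [Field L] (φ : L →+* Qb) (A : ValuationSubring Qb) (q N : ℕ)
    (h : FF L N) (w : FF L N ≃ₐ[L] FF L N) (𝒪₁ 𝒪₂ : ValuationSubring (FF L N))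
    [IsDiscreteValuationRing (A.comap φ)]
    (MD : NodalModelData (A.comap φ) q N h w 𝒪₁ 𝒪₂) (n : ℕ) (hn0 : n ≠ 0)
    (hn : IsUnit ((n : ℕ) : A.comap φ))
    (y z₁ z₂ a b a' b' : FF L N) (hy : y ≠ 0) (hz₁ : z₁ ≠ 0) (hz₂ : z₂ ≠ 0) (hb0 : b ≠ 0)
    (hb0' : b' ≠ 0) (h₁ : a / b = y * z₁ ^ n) (h₂ : a' / b' = w y * z₂ ^ n)
    (hpa : IsPrim A (coeffMap φ (a : LaurentSeries L)))
    (hib : IsInt A (coeffMap φ (b : LaurentSeries L)))
    (hab : Cong A (coeffMap φ (a : LaurentSeries L)) (coeffMap φ (b : LaurentSeries L)))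
    (hpa' : IsPrim A (coeffMap φ (a' : LaurentSeries L)))
    (hib' : IsInt A (coeffMap φ (b' : LaurentSeries L)))
    (hab' : Cong A (coeffMap φ (a' : LaurentSeries L)) (coeffMap φ (b' : LaurentSeries L)))
    (c0 : Certificate L h n y) (c1 : Certificate L h⁻¹ n y)
    (τ : FF L N ≃+* FF L N) (c : ℕ) (hτ : ChartAut (A.comap φ) 𝒪₁ 𝒪₂ h τ)
    (hc : ∀ ϖ : A.comap φ, Irreducible ϖ →
      FrobLike ϖ 𝒪₁ 𝒪₂ (chart (A.comap φ) ({h} : Set (FF L N))) τ c ∧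
      FrobLike ϖ 𝒪₁ 𝒪₂ (chart (A.comap φ) ({h⁻¹} : Set (FF L N))) τ c) :
    KummerEquiv N n (coeffMap φ (y : LaurentSeries L) ^ c)
      (coeffMap φ ((τ y : FF L N) : LaurentSeries L)) := by
  obtain ⟨ϖ, hϖ⟩ := IsDiscreteValuationRing.exists_irreducible (A.comap φ)
  have hG₁ := MD.gauss₁ ϖ hϖ
  have hG₂ := MD.gauss₂ ϖ hϖ
  -- step 1
  have e₁ : (y * z₁ ^ n - 1) / algebraMap (A.comap φ) (FF L N) ϖ ∈ 𝒪₁ := by
    rw [← h₁, MD.spec]
    exact BR7_isGaussInt φ A N hϖ a b hb0 hpa hib hab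
  have e₂' : (w y * z₂ ^ n - 1) / algebraMap (A.comap φ) (FF L N) ϖ ∈ 𝒪₁ := by
    rw [← h₂, MD.spec]
    exact BR7_isGaussInt φ A N hϖ a' b' hb0' hpa' hib' hab'
  have hwP : w (algebraMap (A.comap φ) (FF L N) ϖ) = algebraMap (A.comap φ) (FF L N) ϖ :=
    w.commutes (ϖ : L)
  have e₂ : (y * (w.symm z₂) ^ n - 1) / algebraMap (A.comap φ) (FF L N) ϖ ∈ 𝒪₂ := by
    rw [MD.opp, map_div₀, map_sub, map_mul, map_pow, w.apply_symm_apply, map_one, hwP]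
    exact e₂'
  have hz₂' : w.symm z₂ ≠ 0 := by
    simpa using hz₂
  -- step 2
  obtain ⟨z, hz0, hw₁, hw₂⟩ := exists_common_pow hG₁ hG₂ (MD.arch₁ hϖ) (MD.arch₂ hϖ)
    (MD.nodal0 ϖ hϖ) n hz₁ hz₂' e₁ e₂
  -- step 3
  have cert0 : CertAt ϖ (chart (A.comap φ) ({h} : Set (FF L N))) n (y * z ^ n) :=
    (certAt_of_certificate (A.comap φ) hϖ h n hn0 y c0).mul_pow hz0
  have cert1 : CertAt ϖ (chart (A.comap φ) ({h⁻¹} : Set (FF L N))) n (y * z ^ n) :=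
    (certAt_of_certificate (A.comap φ) hϖ h⁻¹ n hn0 y c1).mul_pow hz0
  -- step 4
  obtain ⟨α, hα0, hα1, hα2⟩ := nodal_crux hϖ hG₁ hG₂ MD.mem₁ MD.inv_mem₁ MD.mem₂ MD.inv_mem₂
    MD.ne_zero (MD.nodal0 ϖ hϖ) (MD.nodal1 ϖ hϖ) MD.finite hn hw₁ hw₂ cert0 cert1 hτ
    (hc ϖ hϖ).1 (hc ϖ hϖ).2
  have hint := isIntegral_of_mem_chart_of_mem_chart MD.transc hα1 hα2
  obtain ⟨c₀, hc₀⟩ := exists_const_of_isIntegral (A.comap φ) N φ _ hint
  obtain ⟨γ, hγ⟩ := IsAlgClosed.exists_pow_nat_eq c₀ (Nat.pos_of_ne_zero hn0)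
  -- step 5
  have hinj := BR7_coeffMap_injective φ
  have hne : ∀ x : FF L N, x ≠ 0 → coeffMap φ (x : LaurentSeries L) ≠ 0 := by
    intro x hx h0
    apply hx
    apply Subtype.ext
    apply hinj
    rw [h0]; simp
  have hα' := hne α hα0
  have hy' := hne y hy
  have hz' := hne z hz0
  have hτy' := hne (τ y) (by simpa using hy)
  have hτz' := hne (τ z) (by simpa using hz0)
  have hcc : coeffMap φ (α : LaurentSeries L) ^ n *
      (coeffMap φ ((τ y : FF L N) : LaurentSeries L) *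
        coeffMap φ ((τ z : FF L N) : LaurentSeries L) ^ n /
        (coeffMap φ (y : LaurentSeries L) * coeffMap φ (z : LaurentSeries L) ^ n) ^ c) =
      HahnSeries.C γ ^ n := by
    rw [← map_pow HahnSeries.C, hγ, ← hc₀]
    simp
  have hγ0 : HahnSeries.C γ ≠ (0 : LaurentSeries Qb) := by
    intro h0
    rw [h0, zero_pow hn0] at hcc
    exact (mul_ne_zero (pow_ne_zero _ hα') (div_ne_zero (mul_ne_zero hτy' (pow_ne_zero _ hτz'))
      (pow_ne_zero _ (mul_ne_zero hy' (pow_ne_zero _ hz'))))) hcc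
  refine ⟨HahnSeries.C γ * coeffMap φ (z : LaurentSeries L) ^ c /
      (coeffMap φ (α : LaurentSeries L) * coeffMap φ ((τ z : FF L N) : LaurentSeries L)), ?_,
    div_ne_zero (mul_ne_zero hγ0 (pow_ne_zero _ hz')) (mul_ne_zero hα' hτz'), ?_⟩
  · apply div_mem
    · apply mul_mem
      · have : (HahnSeries.C γ : LaurentSeries Qb) = algebraMap Qb (LaurentSeries Qb) γ := by
          rw [algebraMap_laurentSeries_eq_single]; rfl
        rw [this]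
        exact (FF Qb N).algebraMap_mem _
      · exact pow_mem (coeffMap_mem_FF φ N z.2) _
    · exact mul_mem (coeffMap_mem_FF φ N α.2) (coeffMap_mem_FF φ N (τ z).2)
  · rw [div_pow, mul_pow, ← hcc]
    field_simp
    ring

end Fermat.Agent.GS
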