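import Fermat.Agent.GS.Iface
import Fermat.Agent.GS.FW.Defs
import Fermat.Agent.S34.Kummer

/-!
# GS bridge, file Triv: `σ u / u` is trivial at the Gauss valuation for `σ` in the inertia group;
dictionary `PowAt` (GS-FW) → `TrivAt` (GS/Iface)

`trivAt_gal_div`: copy the first half of `GR.kummerEquiv_of_cong` / `GR.kummerEquiv_gal_of_mem_inertia`
(`GR/F/Main.lean`): `exists_normalized A N hu hu0` gives `u = C κ * (F / G)`, `F G` primitive in `FF`;
`a := gal σ F * G`, `b := F * gal σ G` are primitive and congruent (`red_actA_of_mem_inertia`),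
`gal σ u / u = C (σ κ / κ) * (a / b)` and a nonzero constant is an `n`-th power
(`kummerEquiv_C_mul`).  (This is `S34.trivAt_gal_div`, `S34/Kummer.lean`.)
-/

set_option autoImplicit false
set_option synthInstance.maxHeartbeats 400000

noncomputable section

namespace Fermat.Agent.GS

open Fermat.Agent.GR ModularCurve

theorem trivAt_gal_div (A : ValuationSubring Qbar) (N n : ℕ) (hn : 0 < n)
    {σ : Qbar ≃ₐ[ℚ] Qbar} (hσ : σ ∈ A.inertiaSubgroupIn ℚ) {u : LaurentSeries Qbar}
    (hu : u ∈ FF Qbar N) (hu0 : u ≠ 0) : TrivAt N n A (gal σ u / u) :=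
  Fermat.Agent.S34.trivAt_gal_div A hn hσ hu hu0

theorem trivAt_of_powAt (A : ValuationSubring Qbar) (N n : ℕ) (hn : 0 < n)
    {y : LaurentSeries Qbar} (hy : FW.PowAt A N n y) : TrivAt N n A y := by
  obtain ⟨z, hz, hz0, c, a, b, hc, ha, hb, hP, hI, hC, h⟩ := hy
  refine ⟨a, b, ha, hb, hP, hI, hC, ?_⟩
  have h1 : KummerEquiv N n y (HahnSeries.C c * (a / b)) := ⟨z, hz, hz0, h.symm⟩
  exact h1.trans (kummerEquiv_C_mul hn hc (a / b)).symm

end Fermat.Agent.GS
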