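import Fermat.Agent.GS.Bridge.Main
import Fermat.Agent.GS.Bridge.Triv
import Fermat.Agent.GR.C.Basic

/-!
# GS bridge, file Export: the inputs (U) and (K) of GS-FW from the existence of nodal models

`inputU`, `inputK` are, verbatim, `GS.FW.InputU` and `GS.FW.InputK` of `GS/FW/Final.lean`
(`FW.aux q = if q = 2 then 3 else 2`).
-/

set_option autoImplicit false
set_option synthInstance.maxHeartbeats 400000

noncomputable section

namespace Fermat.Agent.GS

open Fermat.Agent.GR Fermat.Agent.GR.E ModularCurve IntermediateField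

/-- What GS-INST delivers (`hasNodalModel_h2`, `hasNodalModel_h3`). -/
def NodalModelExists : Prop :=
  ∀ (q N1 : ℕ) (A : ValuationSubring Qb), q.Prime → ¬ q ∣ N1 → N1 ≠ 0 →
    (if q = 2 then 3 else 2) ∣ N1 → A.LiesOverPrime q →
      ∃ H : LaurentSeries ℤ, HasNodalModel A q N1 H

theorem unipAt_of_nodalInertia (q N1 n : ℕ) [NeZero (q * N1)] (hcop : q.Coprime N1) (hn : 0 < n)
    (A : ValuationSubring Qb) (hI : NodalInertia q N1 n A) : FW.UnipAt (q * N1) n A := by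
  intro σ hσ u hu
  obtain ⟨w, hw⟩ := exists_isWQ_Qb q N1 hcop
  obtain ⟨ι⟩ := nonempty_Qbar_hom
  have hσu : IsKummer (N := q * N1) n (gal σ u) := C.isKummer_coeffMap_ringEquiv hu σ.toRingEquiv
  have hyK := hσu.div hu
  have hu0 := hu.ne_zero
  have hσu0 := hσu.ne_zero
  set U : FF Qb (q * N1) := ⟨u, hu.mem⟩ with hU
  set y : FF Qb (q * N1) := ⟨gal σ u / u, hyK.mem⟩ with hy
  have hU0 : U ≠ 0 := fun h => hu0 (congrArg Subtype.val h)
  have hwU0 : ((w U : FF Qb (q * N1)) : LaurentSeries Qb) ≠ 0 := by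
    intro h
    apply hU0
    have : w U = 0 := Subtype.ext h
    simpa using this
  have hwy : ((w y : FF Qb (q * N1)) : LaurentSeries Qb) =
      gal σ ((w U : FF Qb (q * N1)) : LaurentSeries Qb) / (w U : FF Qb (q * N1)) := by
    have h1 : y = mapFF (σ : Qb →+* Qb) (q * N1) U / U := Subtype.ext rfl
    rw [h1, map_div₀, ← hw.mapFF_comm ι (σ : Qb →+* Qb) hcop hw U]
    rfl
  have h1 : TrivAt (q * N1) n A y := trivAt_gal_div A _ n hn hσ hu.mem hu0
  have h2 : TrivAt (q * N1) n A (w y : FF Qb (q * N1)) := by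
    rw [hwy]
    exact trivAt_gal_div A _ n hn hσ (w U).2 hwU0
  obtain ⟨z, hz, hz0, e⟩ := hI w hw y hyK h1 h2 σ hσ
  refine ⟨z, hz, hz0, ?_⟩
  have e' : gal σ (gal σ u) / gal σ u = gal σ u / u * z ^ n := by
    rw [← map_div₀]
    exact e
  field_simp at e'
  linear_combination e'

theorem Export_qExpand_congr (K : Type*) [Field K] {d e : ℕ} [NeZero d] [NeZero e] (h : d = e)
    (f : LaurentSeries K) : qExpand K d f = qExpand K e f := by
  subst h
  rfl

theorem Export_inputK_aux (q N₁ n : ℕ) [NeZero (q * N₁)] (hcop : q.Coprime N₁) (hn : 0 < n)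
    (A : ValuationSubring Qb) (hF : NodalFrob q N₁ n A) (M : ℕ) (hM : M = q * N₁) :
    ∃ w : FF Qb M ≃ₐ[Qb] FF Qb M,
      (∀ (d : ℕ) [NeZero d] [NeZero (d * q)], d ∣ N₁ → ∀ x y : FF Qb M,
        (x : LaurentSeries Qb) = qExpand Qb d (jqModC Qb) →
        (y : LaurentSeries Qb) = qExpand Qb (d * q) (jqModC Qb) → w x = y ∧ w y = x) ∧
      (∀ σ : Qb ≃ₐ[ℚ] Qb, A.IsFrobeniusAt σ q → ∀ y : FF Qb M,
        IsKummer (N := M) n (y : LaurentSeries Qb) →
        FW.PowAt A M n (y : LaurentSeries Qb) →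
        FW.PowAt A M n ((w y : FF Qb M) : LaurentSeries Qb) →
        KummerEquiv M n 1 (FW.opC q σ (y : LaurentSeries Qb))) := by
  subst hM
  obtain ⟨w, hw⟩ := exists_isWQ_Qb q N₁ hcop
  refine ⟨w, ?_, ?_⟩
  · intro d _ _ hd x y hx hy
    have : NeZero (1 * d) := ⟨by rw [one_mul]; exact NeZero.ne d⟩
    have : NeZero (q * d) := ⟨by rw [mul_comm]; exact NeZero.ne (d * q)⟩
    constructor
    · apply Subtype.ext
      rw [hw 1 q d (one_mul q) hd x (by rw [hx]; exact Export_qExpand_congr Qb (one_mul d).symm _),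
        hy]
      exact Export_qExpand_congr Qb (mul_comm q d) _
    · apply Subtype.ext
      rw [hw q 1 d (mul_one q) hd y (by rw [hy]; exact Export_qExpand_congr Qb (mul_comm d q) _),
        hx]
      exact Export_qExpand_congr Qb (one_mul d) _
  · intro σ hσ y hK h1 h2
    obtain ⟨z, hz, hz0, e⟩ := hF w hw y hK (trivAt_of_powAt A _ n hn h1)
      (trivAt_of_powAt A _ n hn h2) σ hσ
    refine ⟨z, hz, hz0, ?_⟩
    have hy0 : (y : LaurentSeries Qb) ≠ 0 := hK.ne_zero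
    have e' : gal σ (gal σ (y : LaurentSeries Qb)) = (y : LaurentSeries Qb) ^ (q ^ 2) * z ^ n := by
      rw [← e]
      ext k
      rfl
    unfold FW.opC
    rw [e', one_mul, mul_div_cancel_left₀ _ (pow_ne_zero _ hy0)]

/-- `= GS.FW.InputU`. -/
theorem inputU (hM : NodalModelExists) :
    ∀ (N : ℕ) [NeZero N] (q n : ℕ) (A : ValuationSubring Qbar), q.Prime → q ∣ N → ¬ q ^ 2 ∣ N →
      ¬ q ∣ n → 0 < n → (if q = 2 then 3 else 2) ∣ N → A.LiesOverPrime q → FW.UnipAt N n A := by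
  intro N _ q n A hq hqN hq2 hqn hn haux hA
  obtain ⟨N1, rfl⟩ := hqN
  have hqN1 : ¬ q ∣ N1 := by
    intro h
    apply hq2
    rw [pow_two]
    exact Nat.mul_dvd_mul_left q h
  have hcop : q.Coprime N1 := (Nat.Prime.coprime_iff_not_dvd hq).2 hqN1
  have hN1 : N1 ≠ 0 := by
    rintro rfl
    exact hqN1 (dvd_zero _)
  have haux' : (if q = 2 then 3 else 2) ∣ N1 := by
    refine Nat.Coprime.dvd_of_dvd_mul_left ?_ haux
    split_ifs with h
    · subst h
      decide
    · exact (Nat.coprime_primes Nat.prime_two hq).2 (fun h' => h h'.symm)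
  obtain ⟨H, hH⟩ := hM q N1 A hq hqN1 hN1 haux' hA
  exact unipAt_of_nodalInertia q N1 n hcop hn A
    (nodalInertia_of_hasNodalModel A q N1 n hq hA hcop H hH hqn)

/-- `= GS.FW.InputK`. -/
theorem inputK (hM : NodalModelExists) :
    ∀ (N₁ : ℕ) [NeZero N₁] (q n : ℕ) (A : ValuationSubring Qbar), q.Prime → ¬ q ∣ N₁ →
      ¬ q ∣ n → 0 < n → (if q = 2 then 3 else 2) ∣ N₁ → A.LiesOverPrime q →
        ∃ w : FF Qbar (N₁ * q) ≃ₐ[Qbar] FF Qbar (N₁ * q),
          FW.IsAtkinLehner N₁ q w ∧ FW.KAt N₁ q n A w := by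
  intro N₁ _ q n A hq hqN₁ hqn hn haux hA
  have hcop : q.Coprime N₁ := (Nat.Prime.coprime_iff_not_dvd hq).2 hqN₁
  have : NeZero (q * N₁) := ⟨mul_ne_zero hq.ne_zero (NeZero.ne N₁)⟩
  obtain ⟨H, hH⟩ := hM q N₁ A hq hqN₁ (NeZero.ne N₁) haux hA
  exact Export_inputK_aux q N₁ n hcop hn A
    (nodalFrob_of_hasNodalModel A q N₁ n hq hA hcop H hH hqn) (N₁ * q) (mul_comm _ _)

end Fermat.Agent.GS
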