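import Fermat.Agent.GS.Conc.Model
import Fermat.Agent.GR.E.BR7

/-!
# GS bridge, file Gal: inertia / Frobenius elements elementwise, restriction to a normal subfield
-/

set_option autoImplicit false
set_option synthInstance.maxHeartbeats 400000

noncomputable section

namespace Fermat.Agent.GS

open Fermat.Agent.GR Fermat.Agent.GR.E ModularCurve IntermediateField

open scoped Pointwise in
theorem mem_iff_of_mem_decomposition (A : ValuationSubring Qb) {σ : Qb ≃ₐ[ℚ] Qb}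
    (hσ : σ ∈ A.decompositionSubgroup ℚ) (x : Qb) : σ x ∈ A ↔ x ∈ A := by
  have h : σ • A = A := hσ
  have h1 : σ • x ∈ σ • A ↔ x ∈ A := ValuationSubring.smul_mem_pointwise_smul_iff
  rw [h] at h1
  exact h1

/-- an element of `A` whose residue class is zero. -/
theorem Gal_mem_nonunits_of_residue_eq (A : ValuationSubring Qb) {a b : A}
    (h : IsLocalRing.residue A a = IsLocalRing.residue A b) : (a : Qb) - (b : Qb) ∈ A.nonunits := by
  have h1 : a - b ∈ IsLocalRing.maximalIdeal A := by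
    rw [← IsLocalRing.residue_eq_zero_iff, map_sub, h, sub_self]
  exact ValuationSubring.coe_mem_nonunits_iff.2 h1

theorem inertia_spec (A : ValuationSubring Qb) {σ : Qb ≃ₐ[ℚ] Qb}
    (hσ : σ ∈ A.inertiaSubgroupIn ℚ) :
    (∀ x, σ x ∈ A ↔ x ∈ A) ∧ ∀ x ∈ A, σ x - x ∈ A.nonunits := by
  obtain ⟨τ, hτ, rfl⟩ := hσ
  refine ⟨mem_iff_of_mem_decomposition A τ.2, fun x hx => ?_⟩
  have h1 : MulSemiringAction.toRingAut (A.decompositionSubgroup ℚ)
      (IsLocalRing.ResidueField A) τ = 1 := hτ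
  have h2 : τ • IsLocalRing.residue A ⟨x, hx⟩ = IsLocalRing.residue A ⟨x, hx⟩ :=
    RingEquiv.congr_fun h1 (IsLocalRing.residue A ⟨x, hx⟩)
  rw [← IsLocalRing.ResidueField.residue_smul] at h2
  exact Gal_mem_nonunits_of_residue_eq A h2

theorem frobenius_spec (A : ValuationSubring Qb) {σ : Qb ≃ₐ[ℚ] Qb} {q : ℕ}
    (hσ : A.IsFrobeniusAt σ q) :
    (∀ x, σ x ∈ A ↔ x ∈ A) ∧ ∀ x ∈ A, σ x - x ^ q ∈ A.nonunits := by
  refine ⟨mem_iff_of_mem_decomposition A hσ.mem_decompositionSubgroup, fun x hx => ?_⟩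
  have h2 := hσ.smul_residue_eq (IsLocalRing.residue A ⟨x, hx⟩)
  rw [← IsLocalRing.ResidueField.residue_smul, ← map_pow] at h2
  exact Gal_mem_nonunits_of_residue_eq A h2

/-- restriction of an automorphism of `Q̄` to a normal subfield. -/
def resL (L : IntermediateField ℚ Qb) [Normal ℚ L] (σ : Qb ≃ₐ[ℚ] Qb) : L ≃+* L :=
  (σ.restrictNormal L).toRingEquiv

theorem algebraMap_resL (L : IntermediateField ℚ Qb) [Normal ℚ L] (σ : Qb ≃ₐ[ℚ] Qb) (x : L) :
    algebraMap L Qb (resL L σ x) = σ (algebraMap L Qb x) :=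
  AlgEquiv.restrictNormal_commutes σ L x

theorem resL_mul (L : IntermediateField ℚ Qb) [Normal ℚ L] (σ τ : Qb ≃ₐ[ℚ] Qb) :
    resL L (σ * τ) = (resL L τ).trans (resL L σ) := by
  ext x
  show algebraMap L Qb (resL L (σ * τ) x) = algebraMap L Qb (((resL L τ).trans (resL L σ)) x)
  rw [RingEquiv.trans_apply, algebraMap_resL, algebraMap_resL, algebraMap_resL]
  rfl

theorem resL_mem_iff (A : ValuationSubring Qb) (L : IntermediateField ℚ Qb) [Normal ℚ L]
    {σ : Qb ≃ₐ[ℚ] Qb} (h : ∀ x, σ x ∈ A ↔ x ∈ A) (x : L) :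
    resL L σ x ∈ A.comap (algebraMap L Qb) ↔ x ∈ A.comap (algebraMap L Qb) := by
  rw [ValuationSubring.mem_comap, ValuationSubring.mem_comap, algebraMap_resL, h]

theorem resL_cong (A : ValuationSubring Qb) (L : IntermediateField ℚ Qb) [Normal ℚ L]
    {σ : Qb ≃ₐ[ℚ] Qb} {c : ℕ} (h : ∀ x ∈ A, σ x - x ^ c ∈ A.nonunits) (x : L)
    (hx : x ∈ A.comap (algebraMap L Qb)) :
    resL L σ x - x ^ c ∈ (A.comap (algebraMap L Qb)).nonunits := by
  rw [BR7_mem_nonunits_comap, map_sub, map_pow, algebraMap_resL]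
  exact h _ hx

theorem coeffMap_mapFFEquiv_resL (L : IntermediateField ℚ Qb) [Normal ℚ L] (σ : Qb ≃ₐ[ℚ] Qb)
    (N : ℕ) (u : FF L N) :
    coeffMap (algebraMap L Qb) ((mapFFEquiv (resL L σ) N u : FF L N) : LaurentSeries L) =
      gal σ (coeffMap (algebraMap L Qb) (u : LaurentSeries L)) := by
  ext n
  rw [coe_mapFFEquiv, coeffMap_coeff, coeffMap_coeff, gal_coeff, coeffMap_coeff]
  exact algebraMap_resL L σ _

end Fermat.Agent.GS
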