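import Fermat.Agent.GR.E.BR3

/-!
# GS bridge, file Level: a common field of definition which is finite and normal over `ℚ`

`E.exists_level` + `IntermediateField.normalClosure` (finite-dimensional, normal) + `E.BR3_mono`.
-/

set_option autoImplicit false
set_option synthInstance.maxHeartbeats 400000

noncomputable section

namespace Fermat.Agent.GS

open Fermat.Agent.GR Fermat.Agent.GR.E ModularCurve IntermediateField

theorem exists_level_normal (N : ℕ) (s : Finset (LaurentSeries Qb))
    (hs : ∀ u ∈ s, u ∈ FF Qb N) :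
    ∃ L : IntermediateField ℚ Qb, FiniteDimensional ℚ L ∧ Normal ℚ L ∧
      ∀ u ∈ s, ∃ u' ∈ FF L N, coeffMap (algebraMap L Qb) u' = u := by
  obtain ⟨L, hfin, hL⟩ := E.exists_level N s hs
  have hnorm : Normal ℚ Qb :=
    @IsAlgClosure.normal ℚ (AlgebraicClosure ℚ) _ _ (AlgebraicClosure.instAlgebra ℚ) _
  refine ⟨IntermediateField.normalClosure ℚ L Qb, normalClosure.is_finiteDimensional ℚ L Qb,
    normalClosure.normal ℚ L Qb, fun u hu => ?_⟩
  exact E.BR3_mono N L.le_normalClosure (hL u hu)

end Fermat.Agent.GS
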