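import Fermat.Agent.GS.WQ

/-!
# GS bridge, file WQ: existence of `w_Q` over every subfield of `Q̄` (on top of `GS/WQ.lean`)
-/

set_option autoImplicit false
set_option synthInstance.maxHeartbeats 400000

noncomputable section

namespace Fermat.Agent.GS

open Fermat.Agent.GR Fermat.Agent.GR.E ModularCurve IntermediateField Fermat.Agent.GT.EMB

/-- existence over every subfield of `Q̄`. -/
theorem exists_isWQ_of_le (L : IntermediateField ℚ Qb) (Q N1 : ℕ) [NeZero (Q * N1)]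
    (hcop : Q.Coprime N1) : ∃ w : FF L (Q * N1) ≃ₐ[L] FF L (Q * N1), IsWQ L Q N1 w := by
  obtain ⟨ι⟩ := nonempty_Qbar_hom
  exact ⟨_, isWQ_wQ (ι.comp (algebraMap L Qb)) hcop⟩

theorem exists_isWQ_Qb (Q N1 : ℕ) [NeZero (Q * N1)] (hcop : Q.Coprime N1) :
    ∃ w : FF Qb (Q * N1) ≃ₐ[Qb] FF Qb (Q * N1), IsWQ Qb Q N1 w := by
  obtain ⟨ι⟩ := nonempty_Qbar_hom
  exact ⟨_, isWQ_wQ ι hcop⟩

end Fermat.Agent.GS
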