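import Fermat.Agent.GS.Bridge.Core
import Fermat.Agent.GS.Bridge.WQ
import Fermat.Agent.GS.Bridge.Gal
import Fermat.Agent.GS.Bridge.Level

/-!
# GS bridge, file Main: `HasNodalModel` ⟹ `NodalInertia`, `NodalFrob`
-/

set_option autoImplicit false
set_option synthInstance.maxHeartbeats 400000

noncomputable section

namespace Fermat.Agent.GS

open Fermat.Agent.GR Fermat.Agent.GR.E ModularCurve IntermediateField

/-- descent of finitely many elements of `FF Q̄ N` to a finite normal extension of `ℚ`. -/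
theorem Main_exists_level (N : ℕ) (S : Finset (FF Qb N)) :
    ∃ L : IntermediateField ℚ Qb, FiniteDimensional ℚ L ∧ Normal ℚ L ∧
      ∀ u ∈ S, ∃ x : FF L N, mapFF (algebraMap L Qb) N x = u := by
  classical
  obtain ⟨L, h1, h2, h3⟩ := exists_level_normal N (S.image (fun u : FF Qb N => (u : LaurentSeries Qb))) (by
    intro u hu
    obtain ⟨x, -, rfl⟩ := Finset.mem_image.1 hu
    exact x.2)
  refine ⟨L, h1, h2, fun u hu => ?_⟩
  obtain ⟨u', hu', hu''⟩ := h3 u (Finset.mem_image_of_mem _ hu)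
  exact ⟨⟨u', hu'⟩, Subtype.ext hu''⟩

set_option maxHeartbeats 2000000 in
theorem nodal_main (A : ValuationSubring Qb) (q N1 n : ℕ) (hq : q.Prime) (hA : A.LiesOverPrime q)
    [NeZero (q * N1)] (hcop : q.Coprime N1) (H : LaurentSeries ℤ) (hM : HasNodalModel A q N1 H)
    (hn : ¬ q ∣ n) (w : FF Qb (q * N1) ≃ₐ[Qb] FF Qb (q * N1)) (hw : IsWQ Qb q N1 w)
    (y : FF Qb (q * N1)) (hK : IsKummer (N := q * N1) n (y : LaurentSeries Qb))
    (h1 : TrivAt (q * N1) n A y) (h2 : TrivAt (q * N1) n A (w y : FF Qb (q * N1)))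
    (σ : Qb ≃ₐ[ℚ] Qb) (hσA : ∀ x, σ x ∈ A ↔ x ∈ A) (c : ℕ)
    (hc : ∀ (L : IntermediateField ℚ Qb) [FiniteDimensional ℚ L] [Normal ℚ L]
      (wL : FF L (q * N1) ≃ₐ[L] FF L (q * N1)) (𝒪₁ 𝒪₂ : ValuationSubring (FF L (q * N1))),
      NodalModelData (A.comap (algebraMap L Qb)) q (q * N1) ⟨baseFn L H, hM.mem L⟩ wL 𝒪₁ 𝒪₂ →
      ∀ ϖ : A.comap (algebraMap L Qb), Irreducible ϖ →
        FrobLike ϖ 𝒪₁ 𝒪₂ (chart (A.comap (algebraMap L Qb))
          ({(⟨baseFn L H, hM.mem L⟩ : FF L (q * N1))} : Set (FF L (q * N1))))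
          (mapFFEquiv (resL L σ) (q * N1)) c ∧
        FrobLike ϖ 𝒪₁ 𝒪₂ (chart (A.comap (algebraMap L Qb))
          ({(⟨baseFn L H, hM.mem L⟩ : FF L (q * N1))⁻¹} : Set (FF L (q * N1))))
          (mapFFEquiv (resL L σ) (q * N1)) c) :
    KummerEquiv (q * N1) n ((y : LaurentSeries Qb) ^ c) (gal σ y) := by
  classical
  have hn0 : n ≠ 0 := by
    rintro rfl
    exact hn (dvd_zero _)
  obtain ⟨hy0, hmem, hdivQ⟩ := hK
  have hyQ0 : y ≠ 0 := fun h => hy0 (by rw [h]; rfl)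
  obtain ⟨a, b, ha, hb, hpa, hib, hab, z₁, hz₁, hz₁0, h₁⟩ := h1
  obtain ⟨a', b', ha', hb', hpa', hib', hab', z₂, hz₂, hz₂0, h₂⟩ := h2
  have := hM.finDim
  obtain ⟨m0, a0, b0, ha0i, hb0i, hs0⟩ := exists_certificate
    (⟨baseFn Qb H, hM.mem Qb⟩ : FF Qb (q * N1)) hM.transc n (Nat.pos_of_ne_zero hn0) y hyQ0 hdivQ
  have := BR7_finiteDimensional_inv (⟨baseFn Qb H, hM.mem Qb⟩ : FF Qb (q * N1)) hM.finDim
  obtain ⟨m1, a1, b1, ha1i, hb1i, hs1⟩ := exists_certificate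
    (⟨baseFn Qb H, hM.mem Qb⟩ : FF Qb (q * N1))⁻¹ (BR7_transcendental_inv hM.transc) n
    (Nat.pos_of_ne_zero hn0) y hyQ0 hdivQ
  obtain ⟨L, hLfin, hLnorm, hL⟩ := Main_exists_level (q * N1)
    (({y, ⟨a, ha⟩, ⟨b, hb⟩, ⟨z₁, hz₁⟩, ⟨a', ha'⟩, ⟨b', hb'⟩, ⟨z₂, hz₂⟩} : Finset (FF Qb (q * N1))) ∪
      ((Finset.univ.image a0 ∪ Finset.univ.image b0) ∪
        (Finset.univ.image a1 ∪ Finset.univ.image b1)))
  obtain ⟨yL, hyL⟩ := hL y (by simp)
  obtain ⟨aL, haL⟩ := hL ⟨a, ha⟩ (by simp)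
  obtain ⟨bL, hbL⟩ := hL ⟨b, hb⟩ (by simp)
  obtain ⟨z₁L, hz₁L⟩ := hL ⟨z₁, hz₁⟩ (by simp)
  obtain ⟨aL', haL'⟩ := hL ⟨a', ha'⟩ (by simp)
  obtain ⟨bL', hbL'⟩ := hL ⟨b', hb'⟩ (by simp)
  obtain ⟨z₂L, hz₂L⟩ := hL ⟨z₂, hz₂⟩ (by simp)
  have hda0 : ∀ i, ∃ x : FF L (q * N1), mapFF (algebraMap L Qb) (q * N1) x = a0 i := fun i =>
    hL _ (Finset.mem_union_right _ (Finset.mem_union_left _ (Finset.mem_union_left _
      (Finset.mem_image_of_mem _ (Finset.mem_univ i)))))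
  have hdb0 : ∀ i, ∃ x : FF L (q * N1), mapFF (algebraMap L Qb) (q * N1) x = b0 i := fun i =>
    hL _ (Finset.mem_union_right _ (Finset.mem_union_left _ (Finset.mem_union_right _
      (Finset.mem_image_of_mem _ (Finset.mem_univ i)))))
  have hda1 : ∀ i, ∃ x : FF L (q * N1), mapFF (algebraMap L Qb) (q * N1) x = a1 i := fun i =>
    hL _ (Finset.mem_union_right _ (Finset.mem_union_right _ (Finset.mem_union_left _
      (Finset.mem_image_of_mem _ (Finset.mem_univ i)))))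
  have hdb1 : ∀ i, ∃ x : FF L (q * N1), mapFF (algebraMap L Qb) (q * N1) x = b1 i := fun i =>
    hL _ (Finset.mem_union_right _ (Finset.mem_union_right _ (Finset.mem_union_right _
      (Finset.mem_image_of_mem _ (Finset.mem_univ i)))))
  clear hL
  have hinj : Function.Injective (mapFF (algebraMap L Qb) (q * N1)) :=
    (mapFF (algebraMap L Qb) (q * N1)).injective
  have hh := BR7_mapFF_baseFn L (q * N1) H (hM.mem L) (hM.mem Qb)
  have c0 : Certificate L (⟨baseFn L H, hM.mem L⟩ : FF L (q * N1)) n yL := by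
    apply BR7_cert_descent L (q * N1) n _ _ m0 a0 b0 _ _ hs0 hda0 hdb0
    · rw [hh, hyL]; exact ha0i
    · rw [hh, hyL]; exact hb0i
  have c1 : Certificate L (⟨baseFn L H, hM.mem L⟩ : FF L (q * N1))⁻¹ n yL := by
    apply BR7_cert_descent L (q * N1) n _ _ m1 a1 b1 _ _ hs1 hda1 hdb1
    · rw [map_inv₀, hh, hyL]; exact ha1i
    · rw [map_inv₀, hh, hyL]; exact hb1i
  have hdvr := isDiscreteValuationRing_comap A q hq hA L
  have hnu := isUnit_natCast_comap A q hq hA L n hn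
  obtain ⟨wL, hwL⟩ := exists_isWQ_of_le L q N1 hcop
  obtain ⟨ι⟩ := nonempty_Qbar_hom
  obtain ⟨𝒪₁, 𝒪₂, MD⟩ := hM.model L hdvr wL hwL
  have hne : ∀ (x : FF L (q * N1)) (u : FF Qb (q * N1)),
      mapFF (algebraMap L Qb) (q * N1) x = u → u ≠ 0 → x ≠ 0 := by
    rintro x u rfl hu rfl
    exact hu (map_zero _)
  have hwy0 : ((w y : FF Qb (q * N1)) : LaurentSeries Qb) ≠ 0 := by
    intro h
    apply hyQ0
    have : w y = 0 := Subtype.ext h
    simpa using this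
  have hb0 : b ≠ 0 := by
    rintro rfl
    rw [div_zero] at h₁
    exact (mul_ne_zero hy0 (pow_ne_zero _ hz₁0)) h₁.symm
  have hb0' : b' ≠ 0 := by
    rintro rfl
    rw [div_zero] at h₂
    exact (mul_ne_zero hwy0 (pow_ne_zero _ hz₂0)) h₂.symm
  have e₁ : aL / bL = yL * z₁L ^ n := by
    apply hinj
    rw [map_div₀, map_mul, map_pow, haL, hbL, hyL, hz₁L]
    exact Subtype.ext h₁
  have e₂ : aL' / bL' = wL yL * z₂L ^ n := by
    apply hinj
    rw [map_div₀, map_mul, map_pow, haL', hbL', hz₂L, hwL.mapFF_comm ι (algebraMap L Qb) hcop hw, hyL]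
    exact Subtype.ext h₂
  have cv : ∀ (x : FF L (q * N1)) (u : FF Qb (q * N1)),
      mapFF (algebraMap L Qb) (q * N1) x = u →
      coeffMap (algebraMap L Qb) (x : LaurentSeries L) = (u : LaurentSeries Qb) := by
    rintro x u rfl
    rfl
  have hfinal := nodal_core (algebraMap L Qb) A q (q * N1) _ wL 𝒪₁ 𝒪₂ MD n hn0 hnu
    yL z₁L z₂L aL bL aL' bL' (hne _ _ hyL hyQ0)
    (hne _ _ hz₁L (fun h => hz₁0 (congrArg Subtype.val h)))
    (hne _ _ hz₂L (fun h => hz₂0 (congrArg Subtype.val h)))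
    (hne _ _ hbL (fun h => hb0 (congrArg Subtype.val h)))
    (hne _ _ hbL' (fun h => hb0' (congrArg Subtype.val h))) e₁ e₂
    (by rw [cv _ _ haL]; exact hpa) (by rw [cv _ _ hbL]; exact hib)
    (by rw [cv _ _ haL, cv _ _ hbL]; exact hab)
    (by rw [cv _ _ haL']; exact hpa') (by rw [cv _ _ hbL']; exact hib')
    (by rw [cv _ _ haL', cv _ _ hbL']; exact hab') c0 c1
    (mapFFEquiv (resL L σ) (q * N1)) c (MD.aut (resL L σ) (resL_mem_iff A L hσA))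
    (hc L wL 𝒪₁ 𝒪₂ MD)
  rw [coeffMap_mapFFEquiv_resL, cv _ _ hyL] at hfinal
  exact hfinal

theorem nodalInertia_of_hasNodalModel (A : ValuationSubring Qb) (q N1 n : ℕ) (hq : q.Prime)
    (hA : A.LiesOverPrime q) [NeZero (q * N1)] (hcop : q.Coprime N1) (H : LaurentSeries ℤ)
    (hM : HasNodalModel A q N1 H) (hn : ¬ q ∣ n) : NodalInertia q N1 n A := by
  intro w hw y hK h1 h2 τ hτ
  obtain ⟨hτ1, hτ2⟩ := inertia_spec A hτ
  have := nodal_main A q N1 n hq hA hcop H hM hn w hw y hK h1 h2 τ hτ1 1 (by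
    intro L _ _ wL 𝒪₁ 𝒪₂ MD ϖ hϖ
    refine MD.inert (resL L τ) (resL_mem_iff A L hτ1) (fun x hx => ?_) ϖ hϖ
    have := resL_cong A L (σ := τ) (c := 1) (by simpa using hτ2) x hx
    simpa using this)
  simpa using this

theorem nodalFrob_of_hasNodalModel (A : ValuationSubring Qb) (q N1 n : ℕ) (hq : q.Prime)
    (hA : A.LiesOverPrime q) [NeZero (q * N1)] (hcop : q.Coprime N1) (H : LaurentSeries ℤ)
    (hM : HasNodalModel A q N1 H) (hn : ¬ q ∣ n) : NodalFrob q N1 n A := by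
  intro w hw y hK h1 h2 φ hφ
  obtain ⟨hφ1, hφ2⟩ := frobenius_spec A hφ
  refine nodal_main A q N1 n hq hA hcop H hM hn w hw y hK h1 h2 (φ * φ) (fun x => ?_) (q ^ 2) ?_
  · rw [AlgEquiv.mul_apply, hφ1, hφ1]
  · intro L _ _ wL 𝒪₁ 𝒪₂ MD ϖ hϖ
    rw [resL_mul]
    exact MD.frob (resL L φ) (resL_mem_iff A L hφ1) (fun x hx => resL_cong A L hφ2 x hx) ϖ hϖ

end Fermat.Agent.GS
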