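import Fermat.Agent.GS.Bridge.Main
import Fermat.Agent.GS.Inputs

/-!
# GS-BRIDGE: the final export `bridgeOut : BridgeOut`
-/

set_option autoImplicit false

namespace Fermat.Agent.GS

theorem bridgeOut : BridgeOut := by
  intro A q N1 n H hN1 hq hqN hA hM hn _
  haveI : NeZero (q * N1) := ⟨Nat.mul_ne_zero hq.ne_zero hN1⟩
  have hcop : q.Coprime N1 := (Nat.Prime.coprime_iff_not_dvd hq).mpr hqN
  exact ⟨nodalInertia_of_hasNodalModel A q N1 n hq hA hcop H hM hn,
    nodalFrob_of_hasNodalModel A q N1 n hq hA hcop H hM hn⟩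

end Fermat.Agent.GS
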